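import Fermat.Agent.MW.Assembly
import Fermat.Agent.MW.Weak.Translate
import Fermat.Agent.MW.Form.Descent

/-!
# The Mordell–Weil theorem for class groups of curves over `ℚ`

For a curve over `ℚ` given by a `CurveBasis`, the Galois invariant classes over `ℚ̄` form a finitely
generated group, provided the class group over `ℚ̄` is `2`-divisible.
-/

set_option autoImplicit false

noncomputable section

open scoped TensorProduct
namespace Fermat.Agent.MW

/-- Mordell–Weil for the classes of a curve over `ℚ`, given `2`-divisibility. -/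
theorem fg_fixed_of_divisible {A₀ : Type} [CommRing A₀] [Algebra ℚ A₀] [IsDedekindDomain (Qbar ⊗[ℚ] A₀)] {M : Type*} [AddCommGroup M] [DistribMulAction GalQ M]
    (D₀ : CurveBasis ℚ A₀) (e : M ≃+ Additive (ClassGroup (Qbar ⊗[ℚ] A₀)))
    (he : ∀ (σ : GalQ) (x : M), e (σ • x) = σ • e x)
    (hdiv : ∀ x : Additive (ClassGroup (Qbar ⊗[ℚ] A₀)), ∃ y, 2 • y = x) :
    AddGroup.FG ↥(FixedPoints.addSubgroup GalQ M) :=
  fg_fixed_of_inputs D₀ e he hdiv (fg_fixed_of_translates D₀ (exists_translates (D₀.baseChange Qbar)))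

end Fermat.Agent.MW
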