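import Fermat.Agent.MW.Weak.Inertia
import Fermat.Agent.MW.Weak.Torsion
import Fermat.Agent.MW.Weak.Transfer

/-!
# Finite generation from divisibility and descent

The weak Mordell–Weil theorem modulo `2` combined with a descent statement gives finite generation of
the Galois invariant classes, transported to any isomorphic Galois module.
-/

set_option autoImplicit false

noncomputable section

open scoped TensorProduct

namespace Fermat.Agent.MW

variable {A₀ : Type} [CommRing A₀] [Algebra ℚ A₀] [IsDedekindDomain (Qbar ⊗[ℚ] A₀)]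

/-- The rational classes modulo `2` form a finite group once classes are `2`-divisible. -/
theorem finite_fixed_two (D₀ : CurveBasis ℚ A₀)
    (hdiv : ∀ x : Additive (ClassGroup (Qbar ⊗[ℚ] A₀)), ∃ y, 2 • y = x) :
    Finite (↥(FixedPoints.addSubgroup GalQ (Additive (ClassGroup (Qbar ⊗[ℚ] A₀)))) ⧸
      (nsmulAddMonoidHom (α := ↥(FixedPoints.addSubgroup GalQ
        (Additive (ClassGroup (Qbar ⊗[ℚ] A₀))))) 2).range) :=
  finite_fixed_quotient D₀ 2 (finite_torsion (D₀.baseChange Qbar) Nat.two_pos) hdiv

/-- Finite generation of the fixed points of a Galois module isomorphic to the class group, from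
`2`-divisibility and a descent statement. -/
theorem fg_fixed_of_inputs {M : Type*} [AddCommGroup M] [DistribMulAction GalQ M]
    (D₀ : CurveBasis ℚ A₀) (e : M ≃+ Additive (ClassGroup (Qbar ⊗[ℚ] A₀)))
    (he : ∀ (σ : GalQ) (x : M), e (σ • x) = σ • e x)
    (hdiv : ∀ x : Additive (ClassGroup (Qbar ⊗[ℚ] A₀)), ∃ y, 2 • y = x)
    (hdescent : Finite (↥(FixedPoints.addSubgroup GalQ (Additive (ClassGroup (Qbar ⊗[ℚ] A₀)))) ⧸
      (nsmulAddMonoidHom (α := ↥(FixedPoints.addSubgroup GalQ
        (Additive (ClassGroup (Qbar ⊗[ℚ] A₀))))) 2).range) →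
      AddGroup.FG ↥(FixedPoints.addSubgroup GalQ (Additive (ClassGroup (Qbar ⊗[ℚ] A₀))))) :
    AddGroup.FG ↥(FixedPoints.addSubgroup GalQ M) :=
  fg_fixedPoints_of_equiv e he (hdescent (finite_fixed_two D₀ hdiv))

end Fermat.Agent.MW
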